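import Mathlib

/-!
# Counting data of a curve over the algebraic closure of a finite field: interface

`σ` is a Frobenius acting on the classes of degree zero, `b r n` the number of effective divisors
of degree `n` fixed by its `r`-th power and `N m` the number of places fixed by the `m`-th one.
-/

set_option autoImplicit false

noncomputable section

namespace FLTAgent.Jac27.Finite

universe w

variable {A : Type w} [AddCommGroup A]

/-- The elements fixed by an endomorphism. -/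
def fixedBy (f : AddMonoid.End A) : AddSubgroup A := (f - 1 : AddMonoid.End A).ker

theorem mem_fixedBy {f : AddMonoid.End A} {a : A} : a ∈ fixedBy f ↔ f a = a := by
  change f a - a = 0 ↔ _
  rw [sub_eq_zero]

/-- The norm of degree `s` attached to an endomorphism. -/
def normEnd (f : AddMonoid.End A) (s : ℕ) : AddMonoid.End A := ∑ i ∈ Finset.range s, f ^ i

/-- The recursion between effective divisors and fixed places. -/
def Recursion {R : Type*} [CommRing R] (b N : ℕ → R) : Prop :=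
  b 0 = 1 ∧ ∀ n : ℕ, (n : R) * b n = ∑ j ∈ Finset.Icc 1 n, N j * b (n - j)

variable (A)

/-- The counts attached to a curve of genus `g` over the field with `q` elements. -/
structure CountData where
  σ : AddMonoid.End A
  q : ℕ
  g : ℕ
  one_lt_q : 1 < q
  periodic : ∀ a : A, ∃ r, 0 < r ∧ (σ ^ r) a = a
  finite_fixed : ∀ r, 0 < r → Finite (fixedBy (σ ^ r))
  b : ℕ → ℕ → ℤ
  N : ℕ → ℤ
  recursion : ∀ r, 0 < r → Recursion (b r) fun j => N (r * j)
  large : ∀ r n, 0 < r → 2 * g ≤ n + 1 →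
    ((q : ℤ) ^ r - 1) * b r n =
      (Nat.card (fixedBy (σ ^ r)) : ℤ) * ((q : ℤ) ^ (r * (n + 1 - g)) - 1)
  canonical : ∀ r, 0 < r → 1 ≤ g →
    ((q : ℤ) ^ r - 1) * b r (2 * g - 2) =
      (Nat.card (fixedBy (σ ^ r)) : ℤ) * ((q : ℤ) ^ (r * (g - 1)) - 1) +
        (q : ℤ) ^ (r * g) - (q : ℤ) ^ (r * (g - 1))
  twist : ∀ r s : ℕ, 0 < r → s.Prime → ∀ χ : AddChar (fixedBy (σ ^ r)) ℂ, χ ≠ 1 →
    (∀ a : fixedBy (σ ^ r), (∃ x ∈ fixedBy (σ ^ (r * s)), normEnd (σ ^ r) s x = a) → χ a = 1) →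
    ∃ bc Nc : ℕ → ℂ, Recursion bc Nc ∧ (∀ n, 2 * g ≤ n + 1 → bc n = 0) ∧
      ∀ j, 0 < j → s ∣ j → Nc j = (N (r * j) : ℂ)

/-- The torsion of a group with counting data. -/
def TargetTorsion : Prop :=
  ∀ (A : Type w) [AddCommGroup A] (C : CountData A) (l : ℕ), l.Prime → ¬ l ∣ C.q → ∀ j : ℕ,
    Nat.card {a : A // (l ^ j : ℕ) • a = 0} =
      l ^ (2 * C.g * j)

end FLTAgent.Jac27.Finite
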