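import Fermat.Agent.Jac27.Finite.Data
import Fermat.Agent.Jac27.Interface

/-!
# The count over the algebraic closure of a finite field from counting data
-/

set_option autoImplicit false

noncomputable section

namespace FLTAgent.Jac27.Finite

open AlgebraicCurve FLTAgent.Curves FLTAgent.Specialization

universe u v

/-- A curve over an algebraic closure of a finite field has counting data of its genus, over a
field whose cardinality is a power of the characteristic. -/
def TargetCountData : Prop :=
  ∀ (p : ℕ) [Fact p.Prime] (k : Type u) [Field k] [IsAlgClosed k] [Algebra (ZMod p) k]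
    [Algebra.IsAlgebraic (ZMod p) k] (F : Type v) [Field F] [Algebra k F] [IsFunctionField k F],
    ∃ C : CountData (Pic0 k F), C.g = (rGenus k F).toNat ∧ ∃ e, C.q = p ^ e

/-- Torsion count from the counting data. -/
theorem targetFiniteField_of (hC : TargetCountData.{u, v}) (hT : TargetTorsion.{v}) :
    TargetFiniteField.{u, v} := by
  intro p hp k _ _ _ _ F _ _ _ l j hl hlp
  obtain ⟨C, hg, e, he⟩ := hC p k F
  have hq : ¬ l ∣ C.q := fun h =>
    hlp ((Nat.prime_dvd_prime_iff_eq hl hp.out).1 (hl.dvd_of_dvd_pow (he ▸ h)))
  rw [← hg, ← hT _ C l hl hq j]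
  refine Nat.card_congr (Equiv.subtypeEquivRight fun a => ?_)
  rw [Pic0.mem_torsion, natCast_zsmul]

end FLTAgent.Jac27.Finite
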