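import Fermat.Agent.Jac27.Finite.Roots

/-!
# Surjectivity of the norms and of Frobenius minus one
-/

set_option autoImplicit false

noncomputable section

namespace FLTAgent.Jac27.Finite

universe w

variable {A : Type w} [AddCommGroup A]

theorem normEnd_apply (f : AddMonoid.End A) (s : ℕ) (x : A) :
    normEnd f s x = ∑ i ∈ Finset.range s, (f ^ i) x := by
  exact AddMonoidHom.finsetSum_apply _ _ _

theorem pow_apply_of_mem_fixedBy {f : AddMonoid.End A} {x : A} (hx : x ∈ fixedBy f) (i : ℕ) :
    (f ^ i) x = x := by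
  induction i with
  | zero => rfl
  | succ i ih => rw [pow_succ]; change (f ^ i) (f x) = x; rw [mem_fixedBy.1 hx, ih]

theorem normEnd_of_fixed {f : AddMonoid.End A} {x : A} (hx : x ∈ fixedBy f) (s : ℕ) :
    normEnd f s x = s • x := by
  rw [normEnd_apply, Finset.sum_congr rfl fun i _ => pow_apply_of_mem_fixedBy hx i,
    Finset.sum_const, Finset.card_range]

theorem sub_one_mul_normEnd (f : AddMonoid.End A) (s : ℕ) :
    (f - 1) * normEnd f s = f ^ s - 1 :=
  mul_geom_sum f s

theorem normEnd_mul_sub_one (f : AddMonoid.End A) (s : ℕ) :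
    normEnd f s * (f - 1) = f ^ s - 1 :=
  geom_sum_mul f s

theorem normEnd_mul (f : AddMonoid.End A) (s t : ℕ) :
    normEnd f (s * t) = normEnd f s * normEnd (f ^ s) t := by
  induction t with
  | zero => simp [normEnd]
  | succ t ih =>
    have h1 : normEnd f (s * (t + 1)) = normEnd f (s * t) + normEnd f s * (f ^ s) ^ t := by
      simp only [normEnd]
      rw [Nat.mul_succ, Finset.sum_range_add, Finset.sum_mul]
      refine congrArg _ (Finset.sum_congr rfl fun i _ => ?_)
      rw [← pow_mul, ← pow_add, add_comm]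
    rw [h1, ih, show normEnd (f ^ s) (t + 1) = normEnd (f ^ s) t + (f ^ s) ^ t from
      Finset.sum_range_succ _ _, mul_add]

theorem normEnd_mem_fixedBy {f : AddMonoid.End A} {s : ℕ} {x : A} (hx : x ∈ fixedBy (f ^ s)) :
    normEnd f s x ∈ fixedBy f := by
  change ((f - 1) * normEnd f s) x = 0
  rw [sub_one_mul_normEnd]
  exact hx

theorem fixedBy_le (f : AddMonoid.End A) (s : ℕ) : fixedBy f ≤ fixedBy (f ^ s) :=
  fun _ hx => mem_fixedBy.2 (pow_apply_of_mem_fixedBy hx s)

theorem fixedBy_pow_mono (D : CountData A) {r R : ℕ} (h : r ∣ R) :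
    fixedBy (D.σ ^ r) ≤ fixedBy (D.σ ^ R) := by
  obtain ⟨s, rfl⟩ := h
  rw [pow_mul]
  exact fixedBy_le _ s

/-- The norm between the groups fixed by two powers of an endomorphism. -/
def normHom (f : AddMonoid.End A) (s : ℕ) : fixedBy (f ^ s) →+ fixedBy f :=
  ((normEnd f s).comp (fixedBy (f ^ s)).subtype).codRestrict (fixedBy f)
    fun x => normEnd_mem_fixedBy x.2

@[simp]
theorem coe_normHom (f : AddMonoid.End A) (s : ℕ) (x : fixedBy (f ^ s)) :
    (normHom f s x : A) = normEnd f s (x : A) := rfl

theorem normHom_surjective_prime (D : CountData A) {r s : ℕ} (hr : 0 < r) (hs : s.Prime) :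
    Function.Surjective (normHom (D.σ ^ r) s) := by
  classical
  rw [← AddMonoidHom.range_eq_top]
  by_contra hne
  have := D.finite_fixed r hr
  set S := (normHom (D.σ ^ r) s).range
  obtain ⟨a, ha⟩ : ∃ a, a ∉ S := not_forall.1 fun h => hne (eq_top_iff.2 fun x _ => h x)
  obtain ⟨ψ, hψ⟩ := AddChar.exists_apply_ne_zero.2
    (fun h => ha ((QuotientAddGroup.eq_zero_iff a).1 h))
  set χ : AddChar (fixedBy (D.σ ^ r)) ℂ := ψ.compAddMonoidHom (QuotientAddGroup.mk' S) with hχ
  have hne1 : χ ≠ 1 := fun h => hψ (by simpa [hχ] using DFunLike.congr_fun h a)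
  have htriv : ∀ b : fixedBy (D.σ ^ r),
      (∃ x ∈ fixedBy (D.σ ^ (r * s)), normEnd (D.σ ^ r) s x = b) → χ b = 1 := by
    rintro b ⟨x, hx, hxb⟩
    have hb : b ∈ S := ⟨⟨x, by rwa [← pow_mul]⟩, Subtype.ext hxb⟩
    rw [hχ, AddChar.compAddMonoidHom_apply, QuotientAddGroup.mk'_apply,
      (QuotientAddGroup.eq_zero_iff b).2 hb, AddChar.map_zero_eq_one]
  obtain ⟨bc, Nc, hrec, hbc, hNc⟩ := D.twist r s hr hs χ hne1 htriv
  -- the twisted series is a polynomial
  set P : Polynomial ℂ := ∑ i ∈ Finset.range (2 * D.g + 1), Polynomial.C (bc i) * Polynomial.X ^ i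
    with hP
  have hcoe : (P : PowerSeries ℂ) = PowerSeries.mk bc := by
    ext n
    rw [Polynomial.coeff_coe, PowerSeries.coeff_mk, hP, Polynomial.finsetSum_coeff]
    simp only [Polynomial.coeff_C_mul_X_pow]
    rcases lt_or_ge n (2 * D.g + 1) with hn | hn
    · rw [Finset.sum_eq_single n (fun j _ hj => if_neg (Ne.symm hj))
        (fun h => absurd (Finset.mem_range.2 hn) h), if_pos rfl]
    · rw [Finset.sum_eq_zero fun j hj => if_neg (by have := Finset.mem_range.1 hj; omega),
        hbc n (by omega)]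
  set M := P.reverse with hM
  have hP0 : P.coeff 0 = 1 := by
    have := congrArg (PowerSeries.coeff 0) hcoe
    rw [Polynomial.coeff_coe, PowerSeries.coeff_mk, hrec.1] at this
    exact this
  have hmonic : M.Monic := by
    rw [Polynomial.Monic, hM, Polynomial.reverse_leadingCoeff, Polynomial.trailingCoeff,
      Polynomial.natTrailingDegree_eq_zero.2 (Or.inr (by rw [hP0]; exact one_ne_zero)), hP0]
  set β := M.roots
  have hPβ : PowerSeries.mk bc = linProd β := by
    rw [← hcoe, ← coe_linPoly]
    refine congrArg _ ?_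
    have hsplit := (IsAlgClosed.splits M).eq_prod_roots_of_monic hmonic
    have hrev : ∀ t : Multiset ℂ,
        (t.map fun x => Polynomial.X - Polynomial.C x).prod.reverse = linPoly t := by
      intro t
      induction t using Multiset.induction_on with
      | empty => simpa [linPoly] using Polynomial.reverse_C (1 : ℂ)
      | cons a t ih =>
        rw [Multiset.map_cons, Multiset.prod_cons, Polynomial.reverse_mul_of_domain, ih, linPoly,
          linPoly, Multiset.map_cons, Multiset.prod_cons]
        congr 1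
        ext n
        rw [Polynomial.coeff_reverse, Polynomial.natDegree_X_sub_C]
        rcases n with - | - | n
        · simp [Polynomial.coeff_one, Polynomial.coeff_X, Polynomial.coeff_C]
        · simp [Polynomial.coeff_one, Polynomial.coeff_X, Polynomial.coeff_C]
        · rw [Polynomial.revAt_eq_self_of_lt (by omega)]
          simp [Polynomial.coeff_one, Polynomial.coeff_X]
    rw [← hrev β, ← hsplit, hM]
    have hrevrev : P.reverse.reverse = P := by
      ext n
      have hd : P.reverse.natDegree = P.natDegree := by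
        rw [Polynomial.reverse_natDegree, Polynomial.natTrailingDegree_eq_zero.2
          (Or.inr (by rw [hP0]; exact one_ne_zero)), Nat.sub_zero]
      rw [Polynomial.coeff_reverse, hd, Polynomial.coeff_reverse, Polynomial.revAt_invol]
    exact hrevrev.symm
  have hlog := (Recursion.logDer hrec).unique_right (hPβ.symm ▸ logDer_linProd β)
  have hNcβ : ∀ j, 0 < j → Nc j = -(β.map (· ^ j)).sum := fun j hj => by
    have := congrArg (PowerSeries.coeff j) hlog
    rw [map_neg, coeff_sum_geo _ hj.ne'] at this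
    simpa [posSer, hj.ne'] using this
  set α := recRoots D
  -- the two products agree
  have hprod : linProd (β.map (· ^ s)) * lin 1 * lin ((D.q : ℂ) ^ (r * s)) =
      linProd (α.map (· ^ (r * s))) → False := by
    intro h
    rw [← coe_linPoly, ← coe_linPoly,
      show lin 1 = ((1 - Polynomial.C (1 : ℂ) * Polynomial.X : Polynomial ℂ) : PowerSeries ℂ) by
        simp [lin],
      show lin ((D.q : ℂ) ^ (r * s)) =
        ((1 - Polynomial.C ((D.q : ℂ) ^ (r * s)) * Polynomial.X : Polynomial ℂ) : PowerSeries ℂ) by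
        simp only [lin, Polynomial.coe_sub, Polynomial.coe_one, Polynomial.coe_mul,
          Polynomial.coe_C, Polynomial.coe_X],
      ← Polynomial.coe_mul, ← Polynomial.coe_mul, Polynomial.coe_inj] at h
    have h1 := congrArg (Polynomial.eval 1) h
    have hrs : 0 < r * s := Nat.mul_pos hr hs.pos
    rw [Polynomial.eval_mul, Polynomial.eval_mul, eval_one_linPoly, eval_one_linPoly,
      Multiset.map_map, Multiset.map_map] at h1
    simp only [Function.comp_def, Polynomial.eval_sub, Polynomial.eval_one, Polynomial.eval_mul,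
      Polynomial.eval_C, Polynomial.eval_X, mul_one, sub_self, mul_zero, zero_mul] at h1
    rw [← hCard_eq D hrs] at h1
    exact (Nat.cast_ne_zero.2 (hCard_pos D hrs).ne') h1.symm
  refine hprod (((logDer_linProd _).mul (logDer_lin _)).mul (logDer_lin _) |>.unique_left ?_ ?_)
  · simp [map_multiset_sum, Multiset.map_map, constantCoeff_geo]
  · convert logDer_linProd (α.map (· ^ (r * s))) using 1
    ext j
    rcases Nat.eq_zero_or_pos j with rfl | hj
    · simp [map_multiset_sum, Multiset.map_map, constantCoeff_geo]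
    · have hsj : 0 < s * j := Nat.mul_pos hs.pos hj
      have hkey := (hNcβ _ hsj).symm.trans (hNc _ hsj (Dvd.intro _ rfl))
      rw [N_eq D (Nat.mul_pos hr hsj)] at hkey
      rw [map_add, map_add, map_neg, map_neg, map_neg, map_neg, coeff_sum_geo _ hj.ne',
        coeff_sum_geo _ hj.ne', Multiset.map_map, Multiset.map_map]
      simp only [geo, PowerSeries.coeff_mk, if_neg hj.ne', one_pow, Function.comp_def, ← pow_mul,
        mul_assoc]
      simp only [← mul_assoc] at hkey
      rw [← mul_assoc]
      linear_combination hkey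

theorem normHom_surjective (D : CountData A) {s : ℕ} (hs : 0 < s) :
    ∀ {r : ℕ}, 0 < r → ∀ a ∈ fixedBy (D.σ ^ r),
      ∃ x ∈ fixedBy (D.σ ^ (r * s)), normEnd (D.σ ^ r) s x = a := by
  induction s using Nat.strong_induction_on with
  | _ s ih =>
    intro r hr a ha
    rcases (Nat.one_le_iff_ne_zero.2 hs.ne').eq_or_lt with rfl | h1
    · exact ⟨a, by rwa [mul_one], by rw [normEnd_of_fixed ha, one_smul]⟩
    · set p := s.minFac
      have hp : p.Prime := Nat.minFac_prime h1.ne'
      obtain ⟨t, ht⟩ : p ∣ s := s.minFac_dvd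
      obtain ⟨⟨y, hy⟩, hya⟩ := normHom_surjective_prime D hr hp ⟨a, ha⟩
      have htpos : 0 < t := Nat.pos_of_ne_zero fun h => hs.ne' (by rw [ht, h, mul_zero])
      have htlt : t < s := by rw [ht]; exact lt_mul_of_one_lt_left htpos hp.one_lt
      rw [← pow_mul] at hy
      obtain ⟨x, hx, hxy⟩ := ih t htlt htpos (Nat.mul_pos hr hp.pos) y hy
      refine ⟨x, by rwa [ht, ← mul_assoc], ?_⟩
      rw [ht, normEnd_mul]
      change normEnd (D.σ ^ r) p (normEnd ((D.σ ^ r) ^ p) t x) = a
      rw [← pow_mul, hxy]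
      exact congrArg Subtype.val hya

theorem card_ker_normHom (D : CountData A) {r s : ℕ} (hr : 0 < r) (hs : 0 < s) :
    hCard D (r * s) = hCard D r * Nat.card (normHom (D.σ ^ r) s).ker := by
  have hsurj : Function.Surjective (normHom (D.σ ^ r) s) := fun a => by
    obtain ⟨x, hx, hxa⟩ := normHom_surjective D hs hr a a.2
    exact ⟨⟨x, by rwa [← pow_mul]⟩, Subtype.ext hxa⟩
  rw [hCard, hCard, pow_mul, (normHom (D.σ ^ r) s).ker.card_eq_card_quotient_mul_card_addSubgroup,
    Nat.card_congr (QuotientAddGroup.quotientKerEquivOfSurjective _ hsurj).toEquiv]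

theorem exists_sub_one (D : CountData A) {R : ℕ} (hR : 0 < R) (x : A) :
    ∃ y : A, (D.σ ^ R) y - y = x := by
  obtain ⟨r, hr, hx⟩ := D.periodic x
  have := D.finite_fixed _ (Nat.mul_pos hR hr)
  set f := D.σ ^ R with hf
  set n : ℕ := r * Nat.card (fixedBy (D.σ ^ (R * r))) with hn
  have hn0 : 0 < n := Nat.mul_pos hr Nat.card_pos
  have hxRr : x ∈ fixedBy (D.σ ^ (R * r)) :=
    fixedBy_pow_mono D (Dvd.intro_left R rfl) (mem_fixedBy.2 hx)
  have hxfr : x ∈ fixedBy (f ^ r) := by rwa [hf, ← pow_mul]
  have hker : normEnd f n x = 0 := by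
    rw [hn, normEnd_mul]
    change normEnd f r (normEnd (f ^ r) _ x) = 0
    rw [normEnd_of_fixed hxfr, show Nat.card (fixedBy (D.σ ^ (R * r))) • x = 0 from
      congrArg Subtype.val (card_nsmul_eq_zero' (x := (⟨x, hxRr⟩ : fixedBy (D.σ ^ (R * r))))),
      map_zero]
  have := D.finite_fixed _ (Nat.mul_pos hR hn0)
  have : Finite (fixedBy (f ^ n)) := by rw [hf, ← pow_mul]; infer_instance
  set τ : fixedBy (f ^ n) →+ (normHom f n).ker :=
    (((f - 1 : AddMonoid.End A).comp (fixedBy (f ^ n)).subtype).codRestrict (fixedBy (f ^ n))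
      fun y => show ((f ^ n - 1) * (f - 1)) (y : A) = 0 by
        rw [((Commute.pow_self f n).sub_left (Commute.one_left _) |>.sub_right
          (Commute.one_right _)).eq]
        change (f - 1) ((f ^ n - 1) (y : A)) = 0
        rw [show (f ^ n - 1) (y : A) = 0 from y.2, map_zero]).codRestrict (normHom f n).ker
      fun y => Subtype.ext (show (normEnd f n * (f - 1)) (y : A) = 0 by
        rw [normEnd_mul_sub_one]; exact y.2) with hτ
  have hcard : Nat.card τ.range = Nat.card (normHom f n).ker := by
    have h1 : hCard D (R * n) = Nat.card τ.range * Nat.card τ.ker := by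
      rw [hCard, pow_mul, ← hf, τ.ker.card_eq_card_quotient_mul_card_addSubgroup,
        Nat.card_congr (QuotientAddGroup.quotientKerEquivRange τ).toEquiv]
    have h2 : Nat.card τ.ker = hCard D R := Nat.card_congr
      { toFun := fun y => ⟨(y.1 : A), show (f - 1) (y.1 : A) = 0 from
          congrArg (fun z => ((z : fixedBy (f ^ n)) : A)) (congrArg Subtype.val y.2)⟩
        invFun := fun y => ⟨⟨(y : A), fixedBy_le f n y.2⟩, Subtype.ext (Subtype.ext y.2)⟩
        left_inv := fun _ => rfl
        right_inv := fun _ => rfl }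
    rw [card_ker_normHom D hR hn0, ← hf, h2, mul_comm (Nat.card τ.range)] at h1
    exact (Nat.eq_of_mul_eq_mul_left (hCard_pos D hR) h1).symm
  have hx' : x ∈ fixedBy (f ^ n) := by
    rw [hn, pow_mul f r]; exact fixedBy_le _ _ hxfr
  have htop : τ.range = ⊤ := AddSubgroup.eq_top_of_card_eq _ hcard
  obtain ⟨y, hy⟩ := (htop ▸ AddSubgroup.mem_top _ :
    (⟨⟨x, hx'⟩, Subtype.ext hker⟩ : (normHom f n).ker) ∈ τ.range)
  exact ⟨y, congrArg (fun z => (((z : (normHom f n).ker) : fixedBy (f ^ n)) : A)) hy⟩

end FLTAgent.Jac27.Finite
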