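import Fermat.Agent.Jac27.Finite.Series

/-!
# Reciprocal roots of the zeta numerator and surjectivity of the norms
-/

set_option autoImplicit false

noncomputable section

namespace FLTAgent.Jac27.Finite

open PowerSeries

universe w

/-- The polynomial `∏ (1 - a X)`. -/
def linPoly (s : Multiset ℂ) : Polynomial ℂ :=
  (s.map fun a => 1 - Polynomial.C a * Polynomial.X).prod

theorem coe_linPoly (s : Multiset ℂ) : (linPoly s : PowerSeries ℂ) = linProd s := by
  rw [linPoly, linProd, ← Polynomial.coeToPowerSeries.ringHom_apply, map_multiset_prod,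
    Multiset.map_map]
  refine congrArg Multiset.prod (Multiset.map_congr rfl fun a _ => ?_)
  simp [lin]

theorem eval_one_linPoly (s : Multiset ℂ) :
    (linPoly s).eval 1 = (s.map fun a => 1 - a).prod := by
  rw [linPoly, Polynomial.eval_multiset_prod, Multiset.map_map]
  refine congrArg Multiset.prod (Multiset.map_congr rfl fun a _ => ?_)
  simp

theorem natDegree_linPoly (s : Multiset ℂ) : (linPoly s).natDegree ≤ s.card := by
  induction s using Multiset.induction_on with
  | empty => simp [linPoly]
  | cons a s ih =>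
    rw [linPoly, Multiset.map_cons, Multiset.prod_cons, Multiset.card_cons]
    refine Polynomial.natDegree_mul_le.trans ?_
    have : (1 - Polynomial.C a * Polynomial.X).natDegree ≤ 1 := by
      refine (Polynomial.natDegree_sub_le _ _).trans ?_
      simp only [Polynomial.natDegree_one, Nat.zero_max]
      exact (Polynomial.natDegree_C_mul_le _ _).trans Polynomial.natDegree_X_le
    rw [linPoly] at ih
    omega

/-- A series whose partial sums stabilise to `c`, equal to `∏ (1 - a X)`, evaluates to `c`. -/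
theorem prod_one_sub {s : Multiset ℂ} {S : PowerSeries ℂ} {c : ℂ} {d : ℕ}
    (h : linProd s = S * lin 1) (hS : ∀ n, d ≤ n → coeff n S = c) :
    (s.map fun a => 1 - a).prod = c := by
  have hn : ∀ n, ∑ i ∈ Finset.range (n + 1), coeff i (linProd s) = coeff n S := by
    intro n
    have hlin : lin 1 = 1 - X := by simp [lin]
    induction n with
    | zero => simp [h, hlin, mul_sub]
    | succ n ih =>
      rw [Finset.sum_range_succ, ih, h, hlin, mul_sub, mul_one, map_sub, coeff_succ_mul_X]
      ring
  rw [← eval_one_linPoly, ← hS (d + s.card) (Nat.le_add_right _ _), ← hn,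
    Polynomial.eval_eq_sum_range' (n := d + s.card + 1)
      (Nat.lt_succ_of_le ((natDegree_linPoly s).trans (Nat.le_add_left _ _)))]
  refine Finset.sum_congr rfl fun i _ => ?_
  rw [one_pow, mul_one, ← coe_linPoly, Polynomial.coeff_coe]

variable {A : Type w} [AddCommGroup A] (D : CountData A)

/-- The order of the group fixed by the `r`-th power of Frobenius. -/
def hCard (r : ℕ) : ℕ := Nat.card (fixedBy (D.σ ^ r))

theorem hCard_pos {r : ℕ} (hr : 0 < r) : 0 < hCard D r :=
  haveI := D.finite_fixed r hr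
  Nat.card_pos

/-- The zeta series times `1 - q^r X`. -/
def zetaPart (r : ℕ) : PowerSeries ℂ :=
  mk (fun n => (D.b r n : ℂ)) * lin ((D.q : ℂ) ^ r)

theorem coeff_zetaPart (r n : ℕ) : coeff n (zetaPart D r) =
    ((D.b r n - if n = 0 then 0 else (D.q : ℤ) ^ r * D.b r (n - 1) : ℤ) : ℂ) := by
  rw [zetaPart, lin, mul_sub, mul_one, map_sub, ← mul_assoc]
  rcases n with - | n
  · simp
  · rw [coeff_succ_mul_X, coeff_mul_C, coeff_mk, coeff_mk, if_neg n.succ_ne_zero, Nat.succ_sub_one]
    push_cast
    ring

theorem zetaPart_eq {r n : ℕ} (hr : 0 < r) (hn : 2 * D.g ≤ n) :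
    coeff n (zetaPart D r) = (hCard D r : ℂ) := by
  rw [coeff_zetaPart, ← Int.cast_natCast (R := ℂ) (hCard D r)]
  refine congrArg _ (mul_left_cancel₀ (a := (D.q : ℤ) ^ r - 1) ?_ ?_)
  · have : (1 : ℤ) < (D.q : ℤ) ^ r := one_lt_pow₀ (by exact_mod_cast D.one_lt_q) hr.ne'
    omega
  · rcases n with - | n
    · have hg : D.g = 0 := by omega
      rw [if_pos rfl, sub_zero, D.large r 0 hr (by omega), hg, zero_add, Nat.sub_zero, mul_one,
        mul_comm, hCard]
    · rw [if_neg n.succ_ne_zero, Nat.succ_sub_one, mul_sub, D.large r (n + 1) hr (by omega),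
        mul_left_comm, D.large r n hr (by omega), hCard,
        show n + 1 + 1 - D.g = (n + 1 - D.g) + 1 by omega, Nat.mul_add, mul_one, pow_add]
      ring

theorem zetaPart_top (hg : 1 ≤ D.g) :
    coeff (2 * D.g - 1) (zetaPart D 1) = ((hCard D 1 - (D.q : ℤ) ^ D.g : ℤ) : ℂ) := by
  rw [coeff_zetaPart, if_neg (by omega)]
  refine congrArg _ (mul_left_cancel₀ (a := (D.q : ℤ) - 1) ?_ ?_)
  · have := D.one_lt_q
    omega
  · have h1 := D.large 1 (2 * D.g - 1) one_pos (by omega)
    have h2 := D.canonical 1 one_pos hg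
    rw [pow_one] at h1 h2 ⊢
    rw [show 2 * D.g - 1 + 1 - D.g = D.g by omega, one_mul] at h1
    rw [show 2 * D.g - 1 - 1 = 2 * D.g - 2 by omega, mul_sub, mul_left_comm, h1, h2, hCard,
      pow_one, one_mul, one_mul]
    obtain ⟨e, he⟩ : ∃ e, D.g = e + 1 := ⟨D.g - 1, by omega⟩
    rw [he, Nat.add_sub_cancel, pow_succ]
    ring

/-- The zeta numerator over the base field, as a list of coefficients. -/
def numCoeff (n : ℕ) : ℤ :=
  (D.b 1 n - if n = 0 then 0 else (D.q : ℤ) ^ 1 * D.b 1 (n - 1)) -
    if n = 0 then 0 else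
      D.b 1 (n - 1) - if n - 1 = 0 then 0 else (D.q : ℤ) ^ 1 * D.b 1 (n - 1 - 1)

theorem coeff_num (n : ℕ) : coeff n (zetaPart D 1 * lin 1) = (numCoeff D n : ℂ) := by
  rw [show lin 1 = 1 - X by simp [lin], mul_sub, mul_one, map_sub, numCoeff]
  rcases n with - | n
  · simp [coeff_zetaPart]
  · rw [coeff_succ_mul_X, coeff_zetaPart, coeff_zetaPart, if_neg n.succ_ne_zero,
      if_neg n.succ_ne_zero, Nat.succ_sub_one]
    push_cast
    rfl

/-- The monic polynomial whose roots are the reciprocal roots of the zeta numerator. -/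
def revNum : Polynomial ℤ :=
  ∑ i ∈ Finset.range (2 * D.g + 1),
    Polynomial.C (numCoeff D i) * Polynomial.X ^ (2 * D.g - i)

theorem coeff_revNum {i : ℕ} (hi : i ≤ 2 * D.g) :
    (revNum D).coeff (2 * D.g - i) = numCoeff D i := by
  rw [revNum, Polynomial.finsetSum_coeff,
    Finset.sum_eq_single i (fun j hj hji => ?_) fun h => absurd (Finset.mem_range.2 (by omega)) h]
  · simp
  · rw [Polynomial.coeff_C_mul_X_pow, if_neg]
    have := Finset.mem_range.1 hj
    omega

theorem numCoeff_zero : numCoeff D 0 = 1 := by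
  simp [numCoeff, (D.recursion 1 one_pos).1]

theorem natDegree_revNum_le : (revNum D).natDegree ≤ 2 * D.g :=
  Polynomial.natDegree_sum_le_of_forall_le _ _ fun _ _ =>
    (Polynomial.natDegree_C_mul_X_pow_le _ _).trans (Nat.sub_le _ _)

theorem monic_revNum : (revNum D).Monic :=
  Polynomial.monic_of_natDegree_le_of_coeff_eq_one _ (natDegree_revNum_le D)
    (by simpa [numCoeff_zero] using coeff_revNum D (i := 0) (Nat.zero_le _))

theorem natDegree_revNum : (revNum D).natDegree = 2 * D.g :=
  le_antisymm (natDegree_revNum_le D) (Polynomial.le_natDegree_of_ne_zero (by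
    simpa [numCoeff_zero] using
      (coeff_revNum D (i := 0) (Nat.zero_le _)).trans_ne (by simp [numCoeff_zero])))

theorem numCoeff_top : numCoeff D (2 * D.g) = (D.q : ℤ) ^ D.g := by
  rcases Nat.eq_zero_or_pos D.g with h | h
  · rw [h, mul_zero, numCoeff_zero, pow_zero]
  · apply Int.cast_injective (α := ℂ)
    rw [← coeff_num, show lin 1 = 1 - X by simp [lin], mul_sub, mul_one, map_sub]
    conv_lhs => arg 2; rw [show 2 * D.g = 2 * D.g - 1 + 1 by omega, coeff_succ_mul_X]
    rw [zetaPart_eq D one_pos le_rfl, zetaPart_top D h]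
    push_cast
    ring

/-- The reciprocal roots. -/
def recRoots : Multiset ℂ := ((revNum D).map (algebraMap ℤ ℂ)).roots

theorem card_recRoots : (recRoots D).card = 2 * D.g := by
  rw [recRoots, ← natDegree_revNum D,
    ← (monic_revNum D).natDegree_map (algebraMap ℤ ℂ)]
  exact (IsAlgClosed.splits _).natDegree_eq_card_roots.symm

theorem isIntegral_recRoots {a : ℂ} (ha : a ∈ recRoots D) : IsIntegral ℤ a := by
  refine ⟨revNum D, monic_revNum D, ?_⟩
  have h := (Polynomial.mem_roots ((monic_revNum D).map _).ne_zero).1 ha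
  rw [Polynomial.IsRoot, Polynomial.eval_map] at h
  exact h

theorem prod_recRoots : (recRoots D).prod = (D.q : ℂ) ^ D.g := by
  have h := (IsAlgClosed.splits ((revNum D).map (algebraMap ℤ ℂ))).coeff_zero_eq_prod_roots_of_monic
    ((monic_revNum D).map _)
  rw [(monic_revNum D).natDegree_map, natDegree_revNum, Polynomial.coeff_map,
    ← Nat.sub_self (2 * D.g), coeff_revNum D le_rfl, numCoeff_top, pow_mul, neg_one_sq, one_pow,
    one_mul] at h
  simpa [recRoots] using h.symm

theorem linProd_recRoots : linProd (recRoots D) = zetaPart D 1 * lin 1 := by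
  set M := (revNum D).map (algebraMap ℤ ℂ) with hM
  have hdeg : M.natDegree = 2 * D.g := by
    rw [hM, (monic_revNum D).natDegree_map, natDegree_revNum]
  have hrev : M.reverse = linPoly (recRoots D) := by
    have hsplit := (IsAlgClosed.splits M).eq_prod_roots_of_monic ((monic_revNum D).map _)
    conv_lhs => rw [hsplit]
    rw [linPoly, recRoots, ← hM]
    induction M.roots using Multiset.induction_on with
    | empty => simpa using Polynomial.reverse_C (1 : ℂ)
    | cons a s ih =>
      rw [Multiset.map_cons, Multiset.prod_cons, Polynomial.reverse_mul_of_domain, ih,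
        Multiset.map_cons, Multiset.prod_cons]
      congr 1
      ext n
      rw [Polynomial.coeff_reverse, Polynomial.natDegree_X_sub_C]
      rcases n with - | - | n
      · simp [Polynomial.coeff_one, Polynomial.coeff_X, Polynomial.coeff_C]
      · simp [Polynomial.coeff_one, Polynomial.coeff_X, Polynomial.coeff_C]
      · rw [Polynomial.revAt_eq_self_of_lt (by omega)]
        simp [Polynomial.coeff_one, Polynomial.coeff_X]
  ext n
  rw [← coe_linPoly, Polynomial.coeff_coe, ← hrev, Polynomial.coeff_reverse, coeff_num, hdeg]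
  rcases le_or_gt n (2 * D.g) with hn | hn
  · rw [Polynomial.revAt_le hn, hM, Polynomial.coeff_map, coeff_revNum D hn]
    rfl
  · rw [Polynomial.revAt_eq_self_of_lt hn, Polynomial.coeff_eq_zero_of_natDegree_lt (by omega),
      ← coeff_num, show lin 1 = 1 - X by simp [lin], mul_sub, mul_one, map_sub]
    obtain ⟨m, rfl⟩ : ∃ m, n = m + 1 := ⟨n - 1, by omega⟩
    rw [coeff_succ_mul_X, zetaPart_eq D one_pos (by omega), zetaPart_eq D one_pos (by omega),
      sub_self]

theorem logDer_zeta {r : ℕ} (hr : 0 < r) : LogDer (zetaPart D r * lin 1)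
    (posSer (fun j => (D.N (r * j) : ℂ)) + -geo ((D.q : ℂ) ^ r) + -geo 1) := by
  refine ((Recursion.logDer ?_).mul (logDer_lin _)).mul (logDer_lin _)
  obtain ⟨h1, h2⟩ := D.recursion r hr
  exact ⟨by simp [h1], fun n => by
    have := congrArg (Int.cast : ℤ → ℂ) (h2 n)
    push_cast at this ⊢
    exact this⟩

theorem coeff_sum_geo (s : Multiset ℂ) {j : ℕ} (hj : j ≠ 0) :
    coeff j (s.map geo).sum = (s.map (· ^ j)).sum := by
  rw [map_multiset_sum, Multiset.map_map]
  refine congrArg Multiset.sum (Multiset.map_congr rfl fun a _ => ?_)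
  simp [geo, hj]

theorem N_eq {j : ℕ} (hj : 0 < j) :
    (D.N j : ℂ) = (D.q : ℂ) ^ j + 1 - ((recRoots D).map (· ^ j)).sum := by
  have h := (logDer_zeta D one_pos).unique_right
    ((linProd_recRoots D) ▸ logDer_linProd (recRoots D))
  have h' := congrArg (coeff j) h
  rw [map_neg, coeff_sum_geo _ hj.ne'] at h'
  simp [posSer, geo, hj.ne'] at h'
  linear_combination h'

theorem linProd_pow {r : ℕ} (hr : 0 < r) :
    linProd ((recRoots D).map (· ^ r)) = zetaPart D r * lin 1 := by
  refine (logDer_linProd _).unique_left ?_ ?_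
  · rw [map_neg, map_multiset_sum, Multiset.map_map, Multiset.sum_eq_zero, neg_zero]
    intro x hx
    obtain ⟨a, -, rfl⟩ := Multiset.mem_map.1 hx
    exact constantCoeff_geo a
  · convert logDer_zeta D hr using 1
    ext j
    rcases Nat.eq_zero_or_pos j with rfl | hj
    · simp [map_multiset_sum, Multiset.map_map, constantCoeff_geo, constantCoeff_posSer]
    · rw [map_neg, coeff_sum_geo _ hj.ne']
      simp [posSer, geo, hj.ne', N_eq D (Nat.mul_pos hr hj), Multiset.map_map,
        pow_mul]
      ring

theorem hCard_eq {r : ℕ} (hr : 0 < r) :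
    (hCard D r : ℂ) = ((recRoots D).map fun a => 1 - a ^ r).prod := by
  rw [← prod_one_sub (linProd_pow D hr) (fun n hn => zetaPart_eq D hr hn), Multiset.map_map]
  rfl

end FLTAgent.Jac27.Finite
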