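import Fermat.Agent.Jac27.Finite.Data

/-!
# Logarithmic derivatives of power series
-/

set_option autoImplicit false

noncomputable section

namespace FLTAgent.Jac27.Finite

open PowerSeries

/-- The series `1 - a X`. -/
def lin (a : ℂ) : PowerSeries ℂ := 1 - C a * X

/-- The series of the powers of `a` with positive exponents. -/
def geo (a : ℂ) : PowerSeries ℂ := mk fun j => if j = 0 then 0 else a ^ j

/-- The series with the given coefficients in positive degrees. -/
def posSer (N : ℕ → ℂ) : PowerSeries ℂ := mk fun j => if j = 0 then 0 else N j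

/-- `A` is the logarithmic derivative of `F`, which has constant term one. -/
def LogDer (F A : PowerSeries ℂ) : Prop :=
  constantCoeff F = 1 ∧ X * d⁄dX ℂ F = A * F

theorem coeff_X_mul_derivative (F : PowerSeries ℂ) (n : ℕ) :
    coeff n (X * d⁄dX ℂ F) = (n : ℂ) * coeff n F := by
  cases n with
  | zero => simp
  | succ n => rw [coeff_succ_X_mul, coeff_derivative]; push_cast; ring

theorem LogDer.mul {F A G B : PowerSeries ℂ} (hF : LogDer F A) (hG : LogDer G B) :
    LogDer (F * G) (A + B) := by
  refine ⟨by rw [map_mul, hF.1, hG.1, one_mul], ?_⟩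
  rw [Derivation.leibniz, smul_eq_mul, smul_eq_mul, mul_add,
    show X * (F * d⁄dX ℂ G) = F * (X * d⁄dX ℂ G) by ring,
    show X * (G * d⁄dX ℂ F) = G * (X * d⁄dX ℂ F) by ring, hF.2, hG.2]
  ring

theorem LogDer.unique_right {F A B : PowerSeries ℂ} (hA : LogDer F A) (hB : LogDer F B) :
    A = B := by
  have h0 : F ≠ 0 := fun h => by simpa [h] using hA.1
  exact mul_right_cancel₀ h0 (hA.2.symm.trans hB.2)

theorem LogDer.unique_left {F G A : PowerSeries ℂ} (hA : constantCoeff A = 0) (hF : LogDer F A)
    (hG : LogDer G A) : F = G := by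
  ext n
  induction n using Nat.strong_induction_on with
  | _ n ih =>
    rcases Nat.eq_zero_or_pos n with rfl | hn
    · rw [coeff_zero_eq_constantCoeff, hF.1, hG.1]
    · refine mul_left_cancel₀ (Nat.cast_ne_zero.2 hn.ne' : (n : ℂ) ≠ 0) ?_
      rw [← coeff_X_mul_derivative, ← coeff_X_mul_derivative, hF.2, hG.2, coeff_mul, coeff_mul]
      refine Finset.sum_congr rfl fun ij hij => ?_
      rcases Nat.eq_zero_or_pos ij.1 with h | h
      · rw [h, coeff_zero_eq_constantCoeff, hA, zero_mul, zero_mul]
      · rw [ih ij.2 (by have := Finset.HasAntidiagonal.mem_antidiagonal.1 hij; omega)]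

theorem logDer_one : LogDer (1 : PowerSeries ℂ) 0 :=
  ⟨map_one _, by rw [Derivation.map_one_eq_zero, mul_zero, zero_mul]⟩

theorem constantCoeff_geo (a : ℂ) : constantCoeff (geo a) = 0 := by
  rw [← coeff_zero_eq_constantCoeff_apply, geo, coeff_mk, if_pos rfl]

theorem constantCoeff_posSer (N : ℕ → ℂ) : constantCoeff (posSer N) = 0 := by
  rw [← coeff_zero_eq_constantCoeff_apply, posSer, coeff_mk, if_pos rfl]

theorem logDer_lin (a : ℂ) : LogDer (lin a) (-geo a) := by
  refine ⟨by simp [lin], ?_⟩
  ext n
  rw [coeff_X_mul_derivative, lin,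
    show -geo a * (1 - C a * X) = C a * geo a * X - geo a by ring, map_sub, map_sub]
  rcases n with - | - | n
  · simp [constantCoeff_geo]
  · simp [geo, coeff_one, coeff_succ_mul_X, coeff_C_mul]
  · simp [geo, coeff_one, coeff_succ_mul_X, coeff_C_mul, pow_succ]
    ring

/-- The product of the series `1 - a X` over a multiset. -/
def linProd (s : Multiset ℂ) : PowerSeries ℂ := (s.map lin).prod

theorem logDer_linProd (s : Multiset ℂ) : LogDer (linProd s) (-(s.map geo).sum) := by
  induction s using Multiset.induction_on with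
  | empty => simpa [linProd] using logDer_one
  | cons a s ih =>
    rw [linProd, Multiset.map_cons, Multiset.prod_cons, Multiset.map_cons, Multiset.sum_cons,
      neg_add]
    exact (logDer_lin a).mul ih

theorem Recursion.logDer {b N : ℕ → ℂ} (h : Recursion b N) : LogDer (mk b) (posSer N) := by
  refine ⟨by rw [← coeff_zero_eq_constantCoeff_apply, coeff_mk, h.1], ?_⟩
  ext n
  rw [coeff_X_mul_derivative, coeff_mk, h.2, coeff_mul,
    Finset.Nat.sum_antidiagonal_eq_sum_range_succ fun i j => coeff i (posSer N) * coeff j (mk b)]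
  refine Finset.sum_subset_zero_on_sdiff (fun i hi => ?_) (fun i hi => ?_) fun i hi => ?_
  · simp only [Finset.mem_Icc] at hi; simp only [Finset.mem_range]; omega
  · obtain ⟨h1, h2⟩ := Finset.mem_sdiff.1 hi
    have : i = 0 := by simp only [Finset.mem_range, Finset.mem_Icc] at h1 h2; omega
    simp [posSer, this]
  · have : i ≠ 0 := by simp only [Finset.mem_Icc] at hi; omega
    simp [posSer, this]

end FLTAgent.Jac27.Finite
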