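import Fermat.Agent.Jac27.Finite.Norms

/-!
# The torsion of a group with counting data
-/

set_option autoImplicit false

noncomputable section

namespace FLTAgent.Jac27.Finite

universe w

theorem exists_pow_sub_one_dvd (α : Multiset ℂ) (hint : ∀ a ∈ α, IsIntegral ℤ a) {q g m : ℕ}
    (hprod : α.prod = (q : ℂ) ^ g) (hm : 1 < m) (hq : Nat.Coprime q m) :
    ∃ r0, 0 < r0 ∧ ∀ r, r0 ∣ r → ∀ a ∈ α,
      ∃ z : integralClosure ℤ ℂ, a ^ r = 1 + (m : ℂ) * (z : ℂ) := by
  classical
  set S : Subalgebra ℤ ℂ := Algebra.adjoin ℤ {a | a ∈ α}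
  have hfin : Module.Finite ℤ S :=
    Module.Finite.iff_fg.2 (fg_adjoin_of_finite (Multiset.finite_toSet α) fun a ha => hint a ha)
  have hS : S ≤ integralClosure ℤ ℂ := Algebra.adjoin_le fun a ha => hint a ha
  set I : Ideal S := Ideal.span {(m : S)} with hI
  have hmI : ((m : ℕ) : S ⧸ I) = 0 := by
    rw [← map_natCast (Ideal.Quotient.mk I), Ideal.Quotient.eq_zero_iff_mem]
    exact Ideal.mem_span_singleton_self _
  have : Module.Finite ℤ (S ⧸ I) :=
    Module.Finite.of_surjective ((Ideal.Quotient.mkₐ ℤ I).toLinearMap) Ideal.Quotient.mk_surjective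
  have htors : Module.IsTorsion ℤ (S ⧸ I) := fun {x} =>
    ⟨⟨(m : ℤ), mem_nonZeroDivisors_of_ne_zero (by exact_mod_cast (by omega : m ≠ 0))⟩, by
      change (m : ℤ) • x = 0
      rw [natCast_zsmul, nsmul_eq_mul, hmI, zero_mul]⟩
  have : Finite (S ⧸ I) := Module.finite_of_fg_torsion _ htors
  have hunit : ∀ a ∈ α, ∀ h : a ∈ S, IsUnit (Ideal.Quotient.mk I ⟨a, h⟩) := by
    intro a ha h
    obtain ⟨t, ht⟩ := Multiset.exists_cons_of_mem ha
    have htS : t.prod ∈ S := multiset_prod_mem t fun b hb =>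
      Algebra.subset_adjoin (ht ▸ Multiset.mem_cons_of_mem hb : b ∈ α)
    have he : (⟨a, h⟩ : S) * ⟨t.prod, htS⟩ = ((q : S)) ^ g := Subtype.ext (by
      push_cast
      rw [← hprod, ht, Multiset.prod_cons])
    refine isUnit_of_mul_isUnit_left (y := Ideal.Quotient.mk I ⟨t.prod, htS⟩) ?_
    rw [← map_mul, he, map_pow, map_natCast]
    refine IsUnit.pow _ ?_
    obtain ⟨u, v, huv⟩ := Int.isCoprime_iff_nat_coprime.2 (by simpa using hq : Nat.Coprime (Int.natAbs q) (Int.natAbs m))
    refine IsUnit.of_mul_eq_one (u : S ⧸ I) ?_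
    have := congrArg (Int.cast : ℤ → S ⧸ I) huv
    push_cast at this
    rw [hmI, mul_zero, add_zero] at this
    rw [mul_comm]
    exact this
  refine ⟨Nat.card (S ⧸ I)ˣ, Nat.card_pos, fun r hr a ha => ?_⟩
  have h : a ∈ S := Algebra.subset_adjoin ha
  have h1 : Ideal.Quotient.mk I (⟨a, h⟩ ^ r) = 1 := by
    obtain ⟨c, rfl⟩ := hr
    obtain ⟨u, hu⟩ := hunit a ha h
    rw [map_pow, ← hu, ← Units.val_pow_eq_pow_val, pow_mul, pow_card_eq_one', one_pow, Units.val_one]
  rw [← map_one (Ideal.Quotient.mk I), Ideal.Quotient.eq, hI, Ideal.mem_span_singleton] at h1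
  obtain ⟨z, hz⟩ := h1
  refine ⟨⟨z, hS z.2⟩, ?_⟩
  have := congrArg (Subtype.val) hz
  push_cast at this
  linear_combination this

variable {A : Type w} [AddCommGroup A]

/-- For suitable levels the kernel of the norm of prime degree `l` has order `l ^ (2 g)` up to a
factor prime to `l`. -/
theorem exists_card_ker_normHom (D : CountData A) {l : ℕ} (hl : l.Prime) (hq : ¬ l ∣ D.q) :
    ∃ r0, 0 < r0 ∧ ∀ r, 0 < r → r0 ∣ r → ∃ u : ℕ, ¬ l ∣ u ∧
      Nat.card (normHom (D.σ ^ r) l).ker = l ^ (2 * D.g) * u := by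
  classical
  obtain ⟨r0, hr0, hz⟩ := exists_pow_sub_one_dvd (recRoots D) (fun a ha => isIntegral_recRoots D ha)
    (prod_recRoots D) (Nat.one_lt_pow two_ne_zero hl.one_lt)
    (((hl.coprime_iff_not_dvd.2 hq).symm).pow_right 2)
  refine ⟨r0, hr0, fun r hr hdvd => ?_⟩
  set n := Nat.card (normHom (D.σ ^ r) l).ker with hn
  have hc : (hCard D (r * l) : ℂ) = (hCard D r : ℂ) * (n : ℂ) := by
    exact_mod_cast card_ker_normHom D hr hl.pos
  rw [hCard_eq D hr, hCard_eq D (Nat.mul_pos hr hl.pos)] at hc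
  have hsplit : ((recRoots D).map fun a => 1 - a ^ (r * l)).prod =
      ((recRoots D).map fun a => 1 - a ^ r).prod *
        ((recRoots D).map fun a => ∑ i ∈ Finset.range l, (a ^ r) ^ i).prod := by
    rw [← Multiset.prod_map_mul]
    refine congrArg Multiset.prod (Multiset.map_congr rfl fun a _ => ?_)
    rw [mul_neg_geom_sum, pow_mul]
  rw [hsplit] at hc
  have hn' : (n : ℂ) = ((recRoots D).map fun a => ∑ i ∈ Finset.range l, (a ^ r) ^ i).prod :=
    (mul_left_cancel₀ (by rw [← hCard_eq D hr]; exact_mod_cast (hCard_pos D hr).ne') hc).symm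
  have key : ∀ t : Multiset ℂ, (∀ a ∈ t, a ∈ recRoots D) → ∃ z : integralClosure ℤ ℂ,
      (t.map fun a => ∑ i ∈ Finset.range l, (a ^ r) ^ i).prod =
        (l : ℂ) ^ t.card * (1 + (l : ℂ) * (z : ℂ)) := by
    intro t
    induction t using Multiset.induction_on with
    | empty => exact fun _ => ⟨0, by simp⟩
    | cons a t ih =>
      intro ht
      obtain ⟨z, hz'⟩ := ih fun b hb => ht b (Multiset.mem_cons_of_mem hb)
      obtain ⟨y, hy⟩ := hz r hdvd a (ht a (Multiset.mem_cons_self a t))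
      set y0 : integralClosure ℤ ℂ := 1 + ((l ^ 2 : ℕ) : integralClosure ℤ ℂ) * y
      obtain ⟨w, hw⟩ : ∃ w : integralClosure ℤ ℂ,
          ∑ i ∈ Finset.range l, y0 ^ i = (l : integralClosure ℤ ℂ) + (l : _) ^ 2 * w := by
        refine ⟨∑ i ∈ Finset.range l, y * ∑ j ∈ Finset.range i, y0 ^ j, ?_⟩
        rw [Finset.mul_sum, ← sub_eq_iff_eq_add']
        conv_lhs => arg 2; rw [show (l : integralClosure ℤ ℂ) = ∑ _i ∈ Finset.range l, 1 by simp]
        rw [← Finset.sum_sub_distrib]
        refine Finset.sum_congr rfl fun i _ => ?_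
        rw [← geom_sum_mul y0 i]
        simp only [y0]
        push_cast
        ring
      have hw' := congrArg (fun v : integralClosure ℤ ℂ => (v : ℂ)) hw
      simp only [y0] at hw'
      push_cast at hw'
      refine ⟨w + z + (l : _) * w * z, ?_⟩
      rw [Multiset.map_cons, Multiset.prod_cons, hz', hy, Multiset.card_cons, pow_succ (l : ℂ) t.card]
      push_cast
      rw [hw']
      ring
  obtain ⟨z, hz'⟩ := key _ fun a ha => ha
  rw [card_recRoots, ← hn'] at hz'
  -- `z` is a rational integer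
  have hl0 : (l : ℂ) ≠ 0 := Nat.cast_ne_zero.2 hl.ne_zero
  set zq : ℚ := ((n : ℚ) - (l : ℚ) ^ (2 * D.g)) / ((l : ℚ) ^ (2 * D.g) * l)
  have hzq : algebraMap ℚ ℂ zq = (z : ℂ) := by
    simp only [zq, eq_ratCast]
    push_cast
    rw [div_eq_iff (mul_ne_zero (pow_ne_zero _ hl0) hl0), hz']
    ring
  obtain ⟨k, hk⟩ := IsIntegrallyClosed.isIntegral_iff.1
    ((isIntegral_algebraMap_iff (algebraMap ℚ ℂ).injective).1 (hzq ▸ z.2))
  have hnk : (n : ℤ) = (l : ℤ) ^ (2 * D.g) * (1 + (l : ℤ) * k) := by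
    have h1 : ((k : ℤ) : ℂ) = (z : ℂ) := by rw [← hzq, ← hk]; simp
    rw [← h1] at hz'
    exact_mod_cast hz'
  obtain ⟨u, hu⟩ : (l : ℤ) ^ (2 * D.g) ∣ (n : ℤ) := ⟨_, hnk⟩
  have hu0 : u = 1 + (l : ℤ) * k :=
    mul_left_cancel₀ (pow_ne_zero _ (by exact_mod_cast hl.ne_zero)) (hu.symm.trans hnk)
  have hun : 0 ≤ u := nonneg_of_mul_nonneg_right (hu ▸ Int.natCast_nonneg n)
    (pow_pos (by exact_mod_cast hl.pos) _)
  lift u to ℕ using hun
  refine ⟨u, fun hdu => ?_, by exact_mod_cast hu⟩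
  have h2 : (l : ℤ) ∣ 1 + (l : ℤ) * k := hu0 ▸ Int.natCast_dvd_natCast.2 hdu
  have h3 : (l : ℤ) ∣ 1 := (dvd_add_left (dvd_mul_right _ _)).1 h2
  exact hl.one_lt.ne' (Nat.dvd_one.1 (by exact_mod_cast h3))

/-- The subgroup killed by `m`. -/
def killed (A : Type w) [AddCommGroup A] (m : ℕ) : AddSubgroup A := (nsmulAddMonoidHom m).ker

theorem mem_killed {m : ℕ} {a : A} : a ∈ killed A m ↔ m • a = 0 := Iff.rfl

theorem killed_mono {m n : ℕ} (h : m ∣ n) : killed A m ≤ killed A n := fun a (ha : m • a = 0) => by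
  obtain ⟨c, rfl⟩ := h
  rw [mem_killed, mul_nsmul, ha, smul_zero]

theorem exists_period_finset (D : CountData A) (s : Finset A) :
    ∃ R, 0 < R ∧ ∀ R', R ∣ R' → ∀ a ∈ s, a ∈ fixedBy (D.σ ^ R') := by
  choose r hr0 hr using D.periodic
  refine ⟨∏ a ∈ s, r a, Finset.prod_pos fun a _ => hr0 a, fun R' hR' a ha => ?_⟩
  exact fixedBy_pow_mono D ((Finset.dvd_prod_of_mem r ha).trans hR') (mem_fixedBy.2 (hr a))

theorem card_fixed_killed_le (D : CountData A) {l : ℕ} (hl : l.Prime) {r u : ℕ} (hr : 0 < r)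
    (hu : ¬ l ∣ u) (h : Nat.card (normHom (D.σ ^ r) l).ker = l ^ (2 * D.g) * u)
    (H : AddSubgroup A) (hHr : H ≤ fixedBy (D.σ ^ r)) (hHl : H ≤ killed A l) :
    Finite H ∧ Nat.card H ≤ l ^ (2 * D.g) := by
  classical
  have := D.finite_fixed r hr
  have : Finite H := Finite.of_injective _ (AddSubgroup.inclusion_injective hHr)
  refine ⟨this, ?_⟩
  set j : H →+ (normHom (D.σ ^ r) l).ker :=
    ((AddSubgroup.inclusion ((hHr.trans (fixedBy_le _ l)) : H ≤ fixedBy ((D.σ ^ r) ^ l))).codRestrict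
      (normHom (D.σ ^ r) l).ker fun a => Subtype.ext (by
        change normEnd (D.σ ^ r) l (a : A) = 0
        rw [normEnd_of_fixed (hHr a.2)]
        exact hHl a.2))
  have hj : Function.Injective j := fun a b hab =>
    Subtype.ext (congrArg (fun z => ((z : fixedBy ((D.σ ^ r) ^ l)) : A)) (congrArg Subtype.val hab))
  have h1 : Nat.card H ∣ l ^ (2 * D.g) * u := by
    rw [← h, Nat.card_congr (AddMonoidHom.ofInjective hj).toEquiv]
    exact j.range.card_addSubgroup_dvd_card
  have h2 : Nat.Coprime (Nat.card H) u := by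
    refine Nat.coprime_of_dvd fun p hp hpH hpu => ?_
    have := Fact.mk hp
    obtain ⟨x, hx⟩ := exists_prime_addOrderOf_dvd_card' p hpH
    have hpl : p ∣ l := hx ▸ addOrderOf_dvd_of_nsmul_eq_zero (Subtype.ext (hHl x.2) : l • x = 0)
    exact hu ((Nat.prime_dvd_prime_iff_eq hp hl).1 hpl ▸ hpu)
  exact Nat.le_of_dvd (pow_pos hl.pos _) (h2.dvd_of_dvd_mul_right h1)

theorem finite_killed (D : CountData A) {l : ℕ} (hl : l.Prime) (hq : ¬ l ∣ D.q) :
    Finite (killed A l) := by
  classical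
  obtain ⟨r0, hr0, hcard⟩ := exists_card_ker_normHom D hl hq
  refine not_infinite_iff_finite.1 fun hinf => ?_
  obtain ⟨s, hs, hsc⟩ := Set.Infinite.exists_subset_card_eq
    (Set.infinite_coe_iff.1 hinf : (killed A l : Set A).Infinite) (l ^ (2 * D.g) + 1)
  obtain ⟨R, hR, hfix⟩ := exists_period_finset D s
  obtain ⟨u, hu, h⟩ := hcard (r0 * R) (Nat.mul_pos hr0 hR) (dvd_mul_right _ _)
  obtain ⟨hfinH, hle⟩ := card_fixed_killed_le D hl (Nat.mul_pos hr0 hR) hu h
    (killed A l ⊓ fixedBy (D.σ ^ (r0 * R))) inf_le_right inf_le_left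
  have := Nat.card_le_card_of_injective
    (fun a : s => (⟨(a : A), hs a.2, hfix _ (dvd_mul_left _ _) _ a.2⟩ :
      ↥(killed A l ⊓ fixedBy (D.σ ^ (r0 * R)))))
    fun a b hab => Subtype.ext (congrArg (fun z : ↥(killed A l ⊓ _) => (z : A)) hab)
  rw [Nat.card_eq_fintype_card, Fintype.card_coe] at this
  omega

theorem card_killed_eq_mul {l m : ℕ} (h : ∀ a : A, ∃ b, l • b = a) :
    Nat.card (killed A (l * m)) = Nat.card (killed A l) * Nat.card (killed A m) := by
  set f : killed A (l * m) →+ killed A m :=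
    ((nsmulAddMonoidHom l).comp (killed A (l * m)).subtype).codRestrict (killed A m) fun a => by
      rw [mem_killed]
      change m • l • (a : A) = 0
      rw [← mul_nsmul]
      exact a.2 with hf
  have hsurj : Function.Surjective f := fun b => by
    obtain ⟨a, ha⟩ := h b
    exact ⟨⟨a, by rw [mem_killed, mul_nsmul, ha]; exact b.2⟩, Subtype.ext ha⟩
  have hker : Nat.card f.ker = Nat.card (killed A l) := Nat.card_congr
    { toFun := fun a => ⟨(a.1 : A), congrArg Subtype.val a.2⟩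
      invFun := fun a => ⟨⟨(a : A), killed_mono (dvd_mul_right l m) a.2⟩, Subtype.ext a.2⟩
      left_inv := fun _ => rfl
      right_inv := fun _ => rfl }
  rw [f.ker.card_eq_card_quotient_mul_card_addSubgroup,
    Nat.card_congr (QuotientAddGroup.quotientKerEquivOfSurjective _ hsurj).toEquiv, hker, mul_comm]

theorem exists_nsmul_eq (D : CountData A) {l : ℕ} (hl : l.Prime) (hq : ¬ l ∣ D.q) (x : A) :
    ∃ y, l • y = x := by
  classical
  have := finite_killed D hl hq
  set S : AddSubgroup A := (nsmulAddMonoidHom l).range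
  -- the quotient by the multiples of `l` is finite
  have hfin : Finite (A ⧸ S) := by
    refine not_infinite_iff_finite.1 fun hinf => ?_
    obtain ⟨s, hsc⟩ := Infinite.exists_subset_card_eq (A ⧸ S) (Nat.card (killed A l) + 1)
    obtain ⟨R, hR, hfix⟩ := exists_period_finset D (s.image Quotient.out)
    have := D.finite_fixed R hR
    set G := fixedBy (D.σ ^ R)
    set M : G →+ G := nsmulAddMonoidHom l
    have hidx : Nat.card (G ⧸ M.range) = Nat.card M.ker := by
      refine Nat.eq_of_mul_eq_mul_right (Nat.card_pos (α := M.range)) ?_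
      rw [← M.range.card_eq_card_quotient_mul_card_addSubgroup,
        ← Nat.card_congr (QuotientAddGroup.quotientKerEquivRange M).toEquiv, mul_comm,
        ← M.ker.card_eq_card_quotient_mul_card_addSubgroup]
    have hle : Nat.card M.ker ≤ Nat.card (killed A l) := Nat.card_le_card_of_injective
      (fun a => (⟨(a.1 : A), congrArg Subtype.val a.2⟩ : killed A l))
      fun a b hab => Subtype.ext (Subtype.ext (congrArg (fun z : killed A l => (z : A)) hab))
    have hinj : s.card ≤ Nat.card (G ⧸ M.range) := by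
      rw [← Fintype.card_coe, ← Nat.card_eq_fintype_card]
      refine Nat.card_le_card_of_injective (fun c : s => (QuotientAddGroup.mk
        (⟨Quotient.out (c : A ⧸ S), hfix R dvd_rfl _ (Finset.mem_image_of_mem _ c.2)⟩ : G) :
          G ⧸ M.range)) fun c d hcd => Subtype.ext ?_
      obtain ⟨y, hy⟩ := (QuotientAddGroup.eq).1 hcd
      rw [← QuotientAddGroup.out_eq' (c : A ⧸ S), ← QuotientAddGroup.out_eq' (d : A ⧸ S)]
      exact QuotientAddGroup.eq.2 ⟨(y : A), congrArg Subtype.val hy⟩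
    omega
  -- a power of Frobenius acts trivially on it
  have := Fintype.ofFinite (A ⧸ S)
  obtain ⟨R, hR, hfix⟩ := exists_period_finset D (Finset.univ.image (Quotient.out : A ⧸ S → A))
  obtain ⟨y, rfl⟩ := exists_sub_one D hR x
  obtain ⟨t, ht⟩ := (QuotientAddGroup.eq).1 (QuotientAddGroup.out_eq' (y : A ⧸ S))
  set o := Quotient.out (y : A ⧸ S)
  have ho : (D.σ ^ R) o = o :=
    mem_fixedBy.1 (hfix R dvd_rfl o (Finset.mem_image_of_mem _ (Finset.mem_univ _)))
  have hy : y = o + l • t := by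
    rw [show l • t = -o + y from ht]; abel
  exact ⟨(D.σ ^ R) t - t, by rw [hy, map_add, map_nsmul, ho, smul_sub]; abel⟩

theorem card_killed (D : CountData A) {l : ℕ} (hl : l.Prime) (hq : ¬ l ∣ D.q) :
    Nat.card (killed A l) = l ^ (2 * D.g) := by
  classical
  obtain ⟨r0, hr0, hcard⟩ := exists_card_ker_normHom D hl hq
  have := finite_killed D hl hq
  have hfin2 : Finite (killed A (l * l)) := Nat.finite_of_card_ne_zero (by
    rw [card_killed_eq_mul (exists_nsmul_eq D hl hq)]
    exact mul_ne_zero Nat.card_pos.ne' Nat.card_pos.ne')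
  obtain ⟨R, hR, hfix⟩ := exists_period_finset D (killed A (l * l) : Set A).toFinite.toFinset
  set r := r0 * R
  have hr : 0 < r := Nat.mul_pos hr0 hR
  have hfixr : killed A (l * l) ≤ fixedBy (D.σ ^ r) := fun a ha =>
    hfix r (dvd_mul_left _ _) a ((Set.Finite.mem_toFinset _).2 ha)
  obtain ⟨u, hu, h⟩ := hcard r hr (dvd_mul_right _ _)
  have hle := (card_fixed_killed_le D hl hr hu h (killed A l)
    ((killed_mono (dvd_mul_left l l)).trans hfixr) le_rfl).2
  refine le_antisymm hle ?_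
  have := D.finite_fixed _ (Nat.mul_pos hr hl.pos)
  have : Finite (fixedBy ((D.σ ^ r) ^ l)) := by rw [← pow_mul]; infer_instance
  set G := (normHom (D.σ ^ r) l).ker
  set H : AddSubgroup G := (nsmulAddMonoidHom l : G →+ G).ker
  have hHK : Nat.card H ≤ Nat.card (killed A l) := Nat.card_le_card_of_injective
    (fun a => (⟨((a.1.1 : fixedBy ((D.σ ^ r) ^ l)) : A),
      congrArg (fun z : fixedBy ((D.σ ^ r) ^ l) => (z : A)) (congrArg Subtype.val a.2)⟩ : killed A l))
    fun a b hab => Subtype.ext (Subtype.ext (Subtype.ext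
      (congrArg (fun z : killed A l => (z : A)) hab)))
  refine le_trans ?_ hHK
  have hGH : Nat.card G = Nat.card (G ⧸ H) * Nat.card H :=
    H.card_eq_card_quotient_mul_card_addSubgroup
  have hndvd : ¬ l ∣ Nat.card (G ⧸ H) := by
    intro hd
    have := Fact.mk hl
    obtain ⟨c, hc⟩ := exists_prime_addOrderOf_dvd_card' l hd
    induction c using QuotientAddGroup.induction_on with
    | _ g =>
      have h2 : l • g ∈ H := (QuotientAddGroup.eq_zero_iff _).1 (by
        have h' := addOrderOf_nsmul_eq_zero (g : G ⧸ H)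
        rw [hc] at h'
        rw [QuotientAddGroup.mk_nsmul]
        exact h')
      have hgA : ((g.1 : fixedBy ((D.σ ^ r) ^ l)) : A) ∈ killed A (l * l) := by
        rw [mem_killed, mul_nsmul]
        exact congrArg (fun z : fixedBy ((D.σ ^ r) ^ l) => (z : A)) (congrArg Subtype.val h2)
      have hNg : normEnd (D.σ ^ r) l ((g.1 : fixedBy ((D.σ ^ r) ^ l)) : A) = 0 :=
        congrArg Subtype.val g.2
      rw [normEnd_of_fixed (hfixr hgA)] at hNg
      have h0 : g ∈ H := Subtype.ext (Subtype.ext hNg)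
      rw [(QuotientAddGroup.eq_zero_iff g).2 h0, addOrderOf_zero] at hc
      exact hl.one_lt.ne hc
  have hdvd : l ^ (2 * D.g) ∣ Nat.card (G ⧸ H) * Nat.card H := by
    rw [← hGH, h]; exact dvd_mul_right _ _
  exact Nat.le_of_dvd Nat.card_pos
    (((hl.coprime_iff_not_dvd.2 hndvd).pow_left _).dvd_of_dvd_mul_left hdvd)

/-- The number of torsion elements of prime power order. -/
theorem targetTorsion : TargetTorsion.{w} := by
  intro A _ D l hl hq j
  change Nat.card (killed A (l ^ j)) = _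
  induction j with
  | zero =>
    rw [pow_zero, mul_zero, pow_zero]
    exact Nat.card_eq_one_iff_unique.2 ⟨⟨fun a b => Subtype.ext (by
      rw [← one_nsmul (a : A), ← one_nsmul (b : A), mem_killed.1 a.2, mem_killed.1 b.2])⟩, ⟨0⟩⟩
  | succ j ih =>
    rw [pow_succ', card_killed_eq_mul (exists_nsmul_eq D hl hq), card_killed D hl hq, ih, ← pow_add]
    congr 1
    ring

end FLTAgent.Jac27.Finite
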